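/-
S28 (Igusa), leaf W4a: the abstract norm/Lagrange core.
Pure field theory; Mathlib only (+ the W5 counting lemma for the assembly at the end).
-/
import Mathlib
import Fermat.Agent.S28.Comb.Jordan

set_option autoImplicit false

open Polynomial Finset

namespace Fermat.Agent.S28

noncomputable section

/-! ### Part 1: a field embedding `ι : k →+* 𝕃` and a polynomial splitting over `𝕃` -/

section core

variable {k 𝕃 : Type*} [Field k] [Field 𝕃] {Q : Type*} [Fintype Q]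

/-- Lagrange: the interpolating sum evaluated at a node. -/
theorem na_eval_lagrange [DecidableEq Q] (Y U : Q → 𝕃) (γ₀ : Q) :
    eval (Y γ₀) (∑ γ, C (U γ) * ∏ β ∈ univ.erase γ, (X - C (Y β))) =
      U γ₀ * eval (Y γ₀) (derivative (∏ γ, (X - C (Y γ)))) := by
  have h1 : ∀ γ, γ ≠ γ₀ → eval (Y γ₀) (∏ β ∈ univ.erase γ, (X - C (Y β))) = 0 := by
    intro γ hγ
    rw [eval_prod]
    exact Finset.prod_eq_zero (i := γ₀) (by simp [Ne.symm hγ]) (by simp)
  rw [derivative_prod_finset, eval_finsetSum, eval_finsetSum]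
  rw [Finset.sum_eq_single γ₀ (fun γ _ hγ => by rw [eval_mul, h1 γ hγ, mul_zero])
    (fun h => absurd (mem_univ _) h)]
  rw [Finset.sum_eq_single γ₀ (fun γ _ hγ => by rw [eval_mul, h1 γ hγ, zero_mul])
    (fun h => absurd (mem_univ _) h)]
  simp

/-- If `Φk` maps to `∏ (X - Y γ)` with `Y` injective, then `Φk` is separable. -/
theorem na_separable (ι : k →+* 𝕃) (Y : Q → 𝕃) (hY : Function.Injective Y)
    (Φk : k[X]) (hΦ : Φk.map ι = ∏ γ, (X - C (Y γ))) : Φk.Separable := by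
  rw [← Polynomial.separable_map ι, hΦ]
  exact (separable_prod_X_sub_C_iff).mpr hY

/-- Interpolation: there is a polynomial over `k` taking the value `U γ` at every `Y γ`. -/
theorem na_exists_interp [DecidableEq Q] (ι : k →+* 𝕃) (Y : Q → 𝕃) (hY : Function.Injective Y)
    (U : Q → 𝕃) (Φk Gk : k[X]) (hΦ : Φk.map ι = ∏ γ, (X - C (Y γ)))
    (hG : Gk.map ι = ∑ γ, C (U γ) * ∏ β ∈ univ.erase γ, (X - C (Y β))) :
    ∃ Rt : k[X], ∀ γ, eval (Y γ) (Rt.map ι) = U γ := by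
  obtain ⟨a, b, hab⟩ := na_separable ι Y hY Φk hΦ
  -- `a * Φk + b * Φk' = 1`
  refine ⟨b * Gk, fun γ => ?_⟩
  have hroot : eval (Y γ) (Φk.map ι) = 0 := by
    rw [hΦ, eval_prod]
    exact Finset.prod_eq_zero (mem_univ γ) (by simp)
  have h1 : eval (Y γ) ((a * Φk + b * derivative Φk).map ι) = 1 := by
    rw [hab]; simp
  rw [Polynomial.map_add, Polynomial.map_mul, Polynomial.map_mul, eval_add, eval_mul, eval_mul,
    hroot, mul_zero, zero_add] at h1
  rw [Polynomial.map_mul, eval_mul, hG, na_eval_lagrange, ← hΦ, derivative_map]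
  calc eval (Y γ) (b.map ι) * (U γ * eval (Y γ) ((derivative Φk).map ι))
      = U γ * (eval (Y γ) (b.map ι) * eval (Y γ) ((derivative Φk).map ι)) := by ring
    _ = U γ := by rw [h1, mul_one]

open scoped Classical in
/-- The root set (inside the index set `Q`) of a polynomial over `k`. -/
def na_S (ι : k →+* 𝕃) (Y : Q → 𝕃) (P : k[X]) : Finset Q :=
  univ.filter (fun γ => eval (Y γ) (P.map ι) = 0)

theorem na_mem_S (ι : k →+* 𝕃) (Y : Q → 𝕃) (P : k[X]) (γ : Q) :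
    γ ∈ na_S ι Y P ↔ eval (Y γ) (P.map ι) = 0 := by
  classical
  simp [na_S]

/-- A monic divisor of `Φk`: its image splits with simple roots `Y γ`, `γ ∈ na_S`. -/
theorem na_splits_and_roots (ι : k →+* 𝕃) (Y : Q → 𝕃) (hY : Function.Injective Y)
    (Φk : k[X]) (hΦ : Φk.map ι = ∏ γ, (X - C (Y γ)))
    (P : k[X]) (hP : P.Monic) (hdvd : P ∣ Φk) :
    (P.map ι).Splits ∧ (P.map ι).roots = (na_S ι Y P).val.map Y := by
  classical
  have hdvd' : P.map ι ∣ ∏ γ, (X - C (Y γ)) := by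
    rw [← hΦ]; exact Polynomial.map_dvd ι hdvd
  have hF0 : (∏ γ : Q, (X - C (Y γ))) ≠ 0 :=
    (monic_prod_of_monic _ _ fun γ _ => monic_X_sub_C (Y γ)).ne_zero
  have hsplitF : (∏ γ : Q, (X - C (Y γ))).Splits := by
    apply Splits.prod
    intro γ _
    exact Splits.X_sub_C (Y γ)
  have hsplit : (P.map ι).Splits := hsplitF.of_dvd hF0 hdvd'
  have hmon : (P.map ι).Monic := hP.map ι
  have hrootsF : (∏ γ : Q, (X - C (Y γ))).roots = (univ : Finset Q).val.map Y := by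
    have : (∏ γ : Q, (X - C (Y γ))) =
        (((univ : Finset Q).val.map Y).map fun a => X - C a).prod := by
      rw [Multiset.map_map]; rfl
    rw [this, roots_multiset_prod_X_sub_C]
  have hle : (P.map ι).roots ≤ (univ : Finset Q).val.map Y := by
    rw [← hrootsF]; exact roots.le_of_dvd hF0 hdvd'
  have hnodupF : ((univ : Finset Q).val.map Y).Nodup :=
    (Multiset.nodup_map_iff_of_injective hY).mpr (univ : Finset Q).nodup
  have hnodup : (P.map ι).roots.Nodup := Multiset.nodup_of_le hle hnodupF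
  refine ⟨hsplit, ?_⟩
  refine Multiset.Nodup.ext hnodup
    ((Multiset.nodup_map_iff_of_injective hY).mpr (Finset.nodup _)) |>.mpr ?_
  intro x
  constructor
  · intro hx
    have hx' := Multiset.mem_of_le hle hx
    obtain ⟨γ, -, rfl⟩ := Multiset.mem_map.mp hx'
    refine Multiset.mem_map.mpr ⟨γ, ?_, rfl⟩
    exact (na_mem_S ι Y P γ).mpr ((mem_roots hmon.ne_zero).mp hx)
  · intro hx
    obtain ⟨γ, hγ, rfl⟩ := Multiset.mem_map.mp hx
    exact (mem_roots hmon.ne_zero).mpr ((na_mem_S ι Y P γ).mp hγ)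

/-- A monic divisor of `Φk` maps to the product of the linear factors at its roots. -/
theorem na_map_eq_prod (ι : k →+* 𝕃) (Y : Q → 𝕃) (hY : Function.Injective Y)
    (Φk : k[X]) (hΦ : Φk.map ι = ∏ γ, (X - C (Y γ)))
    (P : k[X]) (hP : P.Monic) (hdvd : P ∣ Φk) :
    P.map ι = ∏ γ ∈ na_S ι Y P, (X - C (Y γ)) := by
  obtain ⟨hsplit, hroots⟩ := na_splits_and_roots ι Y hY Φk hΦ P hP hdvd
  conv_lhs => rw [hsplit.eq_prod_roots_of_monic (hP.map ι), hroots]
  rw [Multiset.map_map]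
  rfl

/-- The degree of a monic divisor of `Φk` is the number of its roots among the `Y γ`. -/
theorem na_natDegree_eq_card (ι : k →+* 𝕃) (Y : Q → 𝕃) (hY : Function.Injective Y)
    (Φk : k[X]) (hΦ : Φk.map ι = ∏ γ, (X - C (Y γ)))
    (P : k[X]) (hP : P.Monic) (hdvd : P ∣ Φk) :
    P.natDegree = (na_S ι Y P).card := by
  have h := congrArg natDegree (na_map_eq_prod ι Y hY Φk hΦ P hP hdvd)
  rw [natDegree_map, natDegree_prod_of_monic _ _ fun γ _ => monic_X_sub_C (Y γ)] at h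
  simpa using h

/-- **The norm argument**: the product of the `U γ` over the roots of a monic divisor `P` of
`Φk` lies in (the image of) `k`; it is the resultant of `P` and the interpolating polynomial. -/
theorem na_prod_mem_range [DecidableEq Q] (ι : k →+* 𝕃) (Y : Q → 𝕃)
    (hY : Function.Injective Y)
    (U : Q → 𝕃) (Φk Gk : k[X]) (hΦ : Φk.map ι = ∏ γ, (X - C (Y γ)))
    (hG : Gk.map ι = ∑ γ, C (U γ) * ∏ β ∈ univ.erase γ, (X - C (Y β)))
    (P : k[X]) (hP : P.Monic) (hdvd : P ∣ Φk) :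
    ∃ r : k, ι r = ∏ γ ∈ na_S ι Y P, U γ := by
  obtain ⟨Rt, hRt⟩ := na_exists_interp ι Y hY U Φk Gk hΦ hG
  obtain ⟨hsplit, hroots⟩ := na_splits_and_roots ι Y hY Φk hΦ P hP hdvd
  refine ⟨resultant P Rt P.natDegree Rt.natDegree, ?_⟩
  have h := resultant_eq_prod_eval (P.map ι) (Rt.map ι) Rt.natDegree natDegree_map_le hsplit
  rw [natDegree_map, resultant_map_map, (hP.map ι).leadingCoeff, one_pow, one_mul, hroots,
    Multiset.map_map] at h
  rw [h]
  change ((na_S ι Y P).val.map fun γ => eval (Y γ) (Rt.map ι)).prod = _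
  simp_rw [hRt]
  rfl

end core

/-! ### Part 2: `k = K(j)` for a transcendental `j`; integral units are constants -/

section ratfunc

variable {K 𝕃 : Type*} [Field K] [Field 𝕃] [Algebra K 𝕃]

/-- `φ = aeval j : K[X] →+* 𝕃`. -/
def na_phi (j : 𝕃) : K[X] →+* 𝕃 := (aeval j : K[X] →ₐ[K] 𝕃).toRingHom

theorem na_phi_apply (j : 𝕃) (p : K[X]) : na_phi (K := K) j p = aeval j p := rfl

theorem na_phi_C (j : 𝕃) (c : K) : na_phi (K := K) j (C c) = algebraMap K 𝕃 c := by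
  rw [na_phi_apply, aeval_C]

theorem na_phi_injective (j : 𝕃) (hj : Transcendental K j) :
    Function.Injective (na_phi (K := K) j) :=
  transcendental_iff_injective.mp hj

/-- The extension of `aeval j` to the field of rational functions. -/
def na_iota (j : 𝕃) (hj : Transcendental K j) : RatFunc K →+* 𝕃 :=
  IsFractionRing.lift (A := K[X]) (K := RatFunc K) (g := na_phi (K := K) j)
    (na_phi_injective j hj)

theorem na_iota_algebraMap (j : 𝕃) (hj : Transcendental K j) (p : K[X]) :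
    na_iota j hj (algebraMap K[X] (RatFunc K) p) = na_phi (K := K) j p :=
  IsFractionRing.lift_algebraMap _ p

theorem na_iota_comp (j : 𝕃) (hj : Transcendental K j) :
    (na_iota j hj).comp (algebraMap K[X] (RatFunc K)) = na_phi (K := K) j :=
  RingHom.ext (na_iota_algebraMap j hj)

/-- An element of `K(j)` which is integral over `K[j]` together with its inverse is a nonzero
constant. -/
theorem na_const_of_integral (j : 𝕃) (hj : Transcendental K j) (r : RatFunc K)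
    (h1 : (na_phi (K := K) j).IsIntegralElem (na_iota j hj r))
    (h2 : (na_phi (K := K) j).IsIntegralElem (na_iota j hj r)⁻¹) (h0 : na_iota j hj r ≠ 0) :
    ∃ c : K, c ≠ 0 ∧ na_iota j hj r = algebraMap K 𝕃 c := by
  have hinj : Function.Injective (na_iota j hj) := (na_iota j hj).injective
  have hr0 : r ≠ 0 := fun h => h0 (by rw [h, map_zero])
  have i1 : IsIntegral K[X] r := by
    apply RingHom.IsIntegralElem.of_map (g := na_iota j hj) hinj
    rw [na_iota_comp]; exact h1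
  have i2 : IsIntegral K[X] r⁻¹ := by
    apply RingHom.IsIntegralElem.of_map (g := na_iota j hj) hinj
    rw [na_iota_comp, map_inv₀]; exact h2
  obtain ⟨p₁, hp₁⟩ := IsIntegrallyClosed.isIntegral_iff.mp i1
  obtain ⟨p₂, hp₂⟩ := IsIntegrallyClosed.isIntegral_iff.mp i2
  have hmul : p₁ * p₂ = 1 := by
    apply IsFractionRing.injective K[X] (RatFunc K)
    rw [map_mul, hp₁, hp₂, map_one, mul_inv_cancel₀ hr0]
  have hunit : IsUnit p₁ := IsUnit.of_mul_eq_one _ hmul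
  obtain ⟨c, hc, hcp⟩ := Polynomial.isUnit_iff.mp hunit
  refine ⟨c, hc.ne_zero, ?_⟩
  rw [← hp₁, na_iota_algebraMap, ← hcp, na_phi_C]

variable {Q : Type*} [Fintype Q] [DecidableEq Q]

/-- **Theorem (A)**: for every monic divisor `P` of `Φ` over `K(j)`, the product of the `U γ`
over the roots `Y γ` of `P` is a nonzero constant. -/
theorem na_prod_eq_const (j : 𝕃) (hj : Transcendental K j)
    (Y : Q → 𝕃) (hY : Function.Injective Y) (U : Q → 𝕃) (hU0 : ∀ γ, U γ ≠ 0)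
    (hU : ∀ γ, (na_phi (K := K) j).IsIntegralElem (U γ))
    (hUinv : ∀ γ, (na_phi (K := K) j).IsIntegralElem (U γ)⁻¹)
    (Phi G : K[X][X])
    (hPhi : Phi.map (na_phi (K := K) j) = ∏ γ, (X - C (Y γ)))
    (hG : G.map (na_phi (K := K) j) = ∑ γ, C (U γ) * ∏ β ∈ univ.erase γ, (X - C (Y β)))
    (P : (RatFunc K)[X]) (hP : P.Monic)
    (hdvd : P ∣ Phi.map (algebraMap K[X] (RatFunc K))) :
    ∃ c : K, c ≠ 0 ∧ ∏ γ ∈ na_S (na_iota j hj) Y P, U γ = algebraMap K 𝕃 c := by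
  have hΦ : (Phi.map (algebraMap K[X] (RatFunc K))).map (na_iota j hj) =
      ∏ γ, (X - C (Y γ)) := by rw [Polynomial.map_map, na_iota_comp, hPhi]
  have hG' : (G.map (algebraMap K[X] (RatFunc K))).map (na_iota j hj) =
      ∑ γ, C (U γ) * ∏ β ∈ univ.erase γ, (X - C (Y β)) := by
    rw [Polynomial.map_map, na_iota_comp, hG]
  obtain ⟨r, hr⟩ := na_prod_mem_range (na_iota j hj) Y hY U _ _ hΦ hG' P hP hdvd
  rw [← hr]
  apply na_const_of_integral j hj r
  · rw [hr]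
    exact Finset.prod_induction _ _ (fun a b ha hb => ha.mul _ hb)
      (RingHom.isIntegralElem_one _) (fun γ _ => hU γ)
  · rw [hr, ← Finset.prod_inv_distrib]
    exact Finset.prod_induction _ _ (fun a b ha hb => ha.mul _ hb)
      (RingHom.isIntegralElem_one _) (fun γ _ => hUinv γ)
  · rw [hr]
    exact Finset.prod_ne_zero_iff.mpr (fun γ _ => hU0 γ)

end ratfunc

/-! ### Part 3: orders, the relations `(E_m)` and the counting argument -/

section assembly

variable {K 𝕃 : Type*} [Field K] [Field 𝕃] [Algebra K 𝕃]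
variable {Q : Type*} [Fintype Q] [DecidableEq Q]

omit [Fintype Q] in
/-- An additive "order" function is additive on finite products of nonzero elements. -/
theorem na_ord_prod (ord : 𝕃 → ℤ)
    (hord_mul : ∀ x y : 𝕃, x ≠ 0 → y ≠ 0 → ord (x * y) = ord x + ord y)
    (hord_one : ord 1 = 0) (s : Finset Q) (f : Q → 𝕃) (hf : ∀ γ ∈ s, f γ ≠ 0) :
    ord (∏ γ ∈ s, f γ) = ∑ γ ∈ s, ord (f γ) := by
  induction s using Finset.induction_on with
  | empty => simpa using hord_one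
  | insert a s ha ih =>
    rw [Finset.prod_insert ha, Finset.sum_insert ha,
      hord_mul _ _ (hf a (Finset.mem_insert_self a s))
        (Finset.prod_ne_zero_iff.mpr fun γ hγ => hf γ (Finset.mem_insert_of_mem hγ)),
      ih fun γ hγ => hf γ (Finset.mem_insert_of_mem hγ)]

/-- The relation `(E_m)` for the root set of a monic divisor `P` of `Φ`. -/
theorem na_relation_E (j : 𝕃) (hj : Transcendental K j)
    (Y : Q → 𝕃) (hY : Function.Injective Y) (U : Q → 𝕃) (hU0 : ∀ γ, U γ ≠ 0)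
    (hU : ∀ γ, (na_phi (K := K) j).IsIntegralElem (U γ))
    (hUinv : ∀ γ, (na_phi (K := K) j).IsIntegralElem (U γ)⁻¹)
    (Phi G : K[X][X])
    (hPhi : Phi.map (na_phi (K := K) j) = ∏ γ, (X - C (Y γ)))
    (hG : G.map (na_phi (K := K) j) = ∑ γ, C (U γ) * ∏ β ∈ univ.erase γ, (X - C (Y β)))
    (ord : 𝕃 → ℤ)
    (hord_mul : ∀ x y : 𝕃, x ≠ 0 → y ≠ 0 → ord (x * y) = ord x + ord y)
    (hord_const : ∀ c : K, c ≠ 0 → ord (algebraMap K 𝕃 c) = 0)
    (N m : ℕ) (hN : N ≠ 0) (a : Q → ℕ)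
    (hordU : ∀ γ, (m : ℤ) * ord (U γ) = (N : ℤ) * (((Nat.gcd (a γ) m : ℕ) : ℤ) ^ 2 - m))
    (P : (RatFunc K)[X]) (hP : P.Monic)
    (hdvd : P ∣ Phi.map (algebraMap K[X] (RatFunc K))) :
    ∑ γ ∈ na_S (na_iota j hj) Y P, ((Nat.gcd (a γ) m : ℕ) : ℤ) ^ 2 =
      (m : ℤ) * (na_S (na_iota j hj) Y P).card := by
  obtain ⟨c, hc, hprod⟩ := na_prod_eq_const j hj Y hY U hU0 hU hUinv Phi G hPhi hG P hP hdvd
  have hone : ord 1 = 0 := by
    have := hord_const 1 one_ne_zero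
    rwa [map_one] at this
  have h0 : ∑ γ ∈ na_S (na_iota j hj) Y P, ord (U γ) = 0 := by
    rw [← na_ord_prod ord hord_mul hone _ U (fun γ _ => hU0 γ), hprod, hord_const c hc]
  have h1 : ∑ γ ∈ na_S (na_iota j hj) Y P,
      (N : ℤ) * (((Nat.gcd (a γ) m : ℕ) : ℤ) ^ 2 - m) = 0 := by
    calc ∑ γ ∈ na_S (na_iota j hj) Y P, (N : ℤ) * (((Nat.gcd (a γ) m : ℕ) : ℤ) ^ 2 - m)
        = ∑ γ ∈ na_S (na_iota j hj) Y P, (m : ℤ) * ord (U γ) :=
          Finset.sum_congr rfl fun γ _ => (hordU γ).symm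
      _ = (m : ℤ) * ∑ γ ∈ na_S (na_iota j hj) Y P, ord (U γ) := by rw [Finset.mul_sum]
      _ = 0 := by rw [h0, mul_zero]
  rw [← Finset.mul_sum, Finset.sum_sub_distrib, Finset.sum_const, nsmul_eq_mul] at h1
  have hN' : (N : ℤ) ≠ 0 := by exact_mod_cast hN
  have h2 := (mul_eq_zero.mp h1).resolve_left hN'
  linarith [h2, mul_comm (m : ℤ) ((na_S (na_iota j hj) Y P).card : ℤ)]

omit [Algebra K 𝕃] [DecidableEq Q] in
/-- Every `Y γ` is a root of `Φ`, so the root set of `Φ` is everything. -/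
theorem na_S_Phi (ι : RatFunc K →+* 𝕃) (Y : Q → 𝕃) (Φk : (RatFunc K)[X])
    (hΦ : Φk.map ι = ∏ γ, (X - C (Y γ))) : na_S ι Y Φk = univ := by
  ext γ
  simp only [na_mem_S, mem_univ, iff_true]
  rw [hΦ, eval_prod]
  exact Finset.prod_eq_zero (mem_univ γ) (by simp)

/-- **Theorem (B)**: under the order formula for the modular units and uniqueness of the index
with `N ∣ a γ`, every monic divisor of `Φ` over `K(j)` vanishing at `Y γ₀` is `Φ` itself. -/
theorem na_factor_eq (j : 𝕃) (hj : Transcendental K j)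
    (Y : Q → 𝕃) (hY : Function.Injective Y)
    (Phi : K[X][X]) (hPhi : Phi.map (na_phi (K := K) j) = ∏ γ, (X - C (Y γ)))
    (N : ℕ) (hN : N ≠ 0) (a : Q → ℕ) (γ₀ : Q) (hN1 : ∀ γ, N ∣ a γ ↔ γ = γ₀)
    (ord : 𝕃 → ℤ)
    (hord_mul : ∀ x y : 𝕃, x ≠ 0 → y ≠ 0 → ord (x * y) = ord x + ord y)
    (hord_const : ∀ c : K, c ≠ 0 → ord (algebraMap K 𝕃 c) = 0)
    (U : ℕ → Q → 𝕃) (G : ℕ → K[X][X])
    (hU0 : ∀ m, m ∣ N → ∀ γ, U m γ ≠ 0)
    (hU : ∀ m, m ∣ N → ∀ γ, (na_phi (K := K) j).IsIntegralElem (U m γ))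
    (hUinv : ∀ m, m ∣ N → ∀ γ, (na_phi (K := K) j).IsIntegralElem (U m γ)⁻¹)
    (hG : ∀ m, m ∣ N → (G m).map (na_phi (K := K) j) =
      ∑ γ, C (U m γ) * ∏ β ∈ univ.erase γ, (X - C (Y β)))
    (hordU : ∀ m, m ∣ N → ∀ γ,
      (m : ℤ) * ord (U m γ) = (N : ℤ) * (((Nat.gcd (a γ) m : ℕ) : ℤ) ^ 2 - m))
    (P : (RatFunc K)[X]) (hP : P.Monic)
    (hdvd : P ∣ Phi.map (algebraMap K[X] (RatFunc K)))
    (hroot : eval (Y γ₀) (P.map (na_iota j hj)) = 0) :
    P = Phi.map (algebraMap K[X] (RatFunc K)) := by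
  set Φk := Phi.map (algebraMap K[X] (RatFunc K)) with hΦk
  have hΦ : Φk.map (na_iota j hj) = ∏ γ, (X - C (Y γ)) := by
    rw [hΦk, Polynomial.map_map, na_iota_comp, hPhi]
  have hΦmon : Φk.Monic := by
    apply Polynomial.monic_of_injective (na_iota j hj).injective
    rw [hΦ]
    exact monic_prod_of_monic _ _ fun γ _ => monic_X_sub_C (Y γ)
  have hE : ∀ P' : (RatFunc K)[X], P'.Monic → P' ∣ Φk → ∀ m, m ∣ N →
      ∑ γ ∈ na_S (na_iota j hj) Y P', ((Nat.gcd (a γ) m : ℕ) : ℤ) ^ 2 =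
        (m : ℤ) * (na_S (na_iota j hj) Y P').card := fun P' hP' hdvd' m hm =>
    na_relation_E j hj Y hY (U m) (hU0 m hm) (hU m hm) (hUinv m hm) Phi (G m) hPhi (hG m hm)
      ord hord_mul hord_const N m hN a (hordU m hm) P' hP' hdvd'
  have hfilter : ∀ S : Finset Q, γ₀ ∈ S → (S.filter fun α => N ∣ a α).card = 1 := by
    intro S hS
    have : (S.filter fun α => N ∣ a α) = {γ₀} := by
      ext γ
      simp only [mem_filter, mem_singleton]
      constructor
      · rintro ⟨_, h⟩; exact (hN1 γ).mp h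
      · rintro rfl; exact ⟨hS, (hN1 γ).mpr rfl⟩
    rw [this, card_singleton]
  have hSuniv : na_S (na_iota j hj) Y P = univ := by
    apply ig_subset_eq N hN _ _ (subset_univ _) a (hE P hP hdvd)
      (hfilter _ ((na_mem_S _ _ _ _).mpr hroot))
    · have := hE Φk hΦmon dvd_rfl
      rwa [na_S_Phi (na_iota j hj) Y Φk hΦ] at this
    · exact hfilter _ (mem_univ _)
  have hdegP : P.natDegree = Fintype.card Q := by
    rw [na_natDegree_eq_card (na_iota j hj) Y hY Φk hΦ P hP hdvd, hSuniv, card_univ]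
  have hdegΦ : Φk.natDegree = Fintype.card Q := by
    rw [na_natDegree_eq_card (na_iota j hj) Y hY Φk hΦ Φk hΦmon dvd_rfl,
      na_S_Phi (na_iota j hj) Y Φk hΦ, card_univ]
  exact (Polynomial.eq_of_monic_of_dvd_of_natDegree_le hP hΦmon hdvd
    (by rw [hdegP, hdegΦ])).symm

/-- Under the hypotheses of Theorem (B), `Φ` is the minimal polynomial of `Y γ₀` over `K(j)`
(for the algebra structure given by `na_iota`). -/
theorem na_minpoly_eq (j : 𝕃) (hj : Transcendental K j)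
    (Y : Q → 𝕃) (hY : Function.Injective Y)
    (Phi : K[X][X]) (hPhi : Phi.map (na_phi (K := K) j) = ∏ γ, (X - C (Y γ)))
    (N : ℕ) (hN : N ≠ 0) (a : Q → ℕ) (γ₀ : Q) (hN1 : ∀ γ, N ∣ a γ ↔ γ = γ₀)
    (ord : 𝕃 → ℤ)
    (hord_mul : ∀ x y : 𝕃, x ≠ 0 → y ≠ 0 → ord (x * y) = ord x + ord y)
    (hord_const : ∀ c : K, c ≠ 0 → ord (algebraMap K 𝕃 c) = 0)
    (U : ℕ → Q → 𝕃) (G : ℕ → K[X][X])
    (hU0 : ∀ m, m ∣ N → ∀ γ, U m γ ≠ 0)
    (hU : ∀ m, m ∣ N → ∀ γ, (na_phi (K := K) j).IsIntegralElem (U m γ))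
    (hUinv : ∀ m, m ∣ N → ∀ γ, (na_phi (K := K) j).IsIntegralElem (U m γ)⁻¹)
    (hG : ∀ m, m ∣ N → (G m).map (na_phi (K := K) j) =
      ∑ γ, C (U m γ) * ∏ β ∈ univ.erase γ, (X - C (Y β)))
    (hordU : ∀ m, m ∣ N → ∀ γ,
      (m : ℤ) * ord (U m γ) = (N : ℤ) * (((Nat.gcd (a γ) m : ℕ) : ℤ) ^ 2 - m)) :
    letI : Algebra (RatFunc K) 𝕃 := (na_iota j hj).toAlgebra
    minpoly (RatFunc K) (Y γ₀) = Phi.map (algebraMap K[X] (RatFunc K)) := by
  let _ : Algebra (RatFunc K) 𝕃 := (na_iota j hj).toAlgebra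
  set Φk := Phi.map (algebraMap K[X] (RatFunc K)) with hΦk
  have hΦ : Φk.map (na_iota j hj) = ∏ γ, (X - C (Y γ)) := by
    rw [hΦk, Polynomial.map_map, na_iota_comp, hPhi]
  have hΦmon : Φk.Monic := by
    apply Polynomial.monic_of_injective (na_iota j hj).injective
    rw [hΦ]
    exact monic_prod_of_monic _ _ fun γ _ => monic_X_sub_C (Y γ)
  have hroot : aeval (Y γ₀) Φk = 0 := by
    rw [aeval_def, eval₂_eq_eval_map]
    change eval (Y γ₀) (Φk.map (na_iota j hj)) = 0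
    rw [hΦ, eval_prod]
    exact Finset.prod_eq_zero (mem_univ γ₀) (by simp)
  have hint : IsIntegral (RatFunc K) (Y γ₀) := ⟨Φk, hΦmon, hroot⟩
  apply na_factor_eq j hj Y hY Phi hPhi N hN a γ₀ hN1 ord hord_mul hord_const U G hU0 hU hUinv
    hG hordU _ (minpoly.monic hint) (minpoly.dvd _ _ hroot)
  have := minpoly.aeval (RatFunc K) (Y γ₀)
  rw [aeval_def, eval₂_eq_eval_map] at this
  exact this

/-- Under the hypotheses of Theorem (B), `Φ` is irreducible over `K(j)`. -/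
theorem na_irreducible (j : 𝕃) (hj : Transcendental K j)
    (Y : Q → 𝕃) (hY : Function.Injective Y)
    (Phi : K[X][X]) (hPhi : Phi.map (na_phi (K := K) j) = ∏ γ, (X - C (Y γ)))
    (N : ℕ) (hN : N ≠ 0) (a : Q → ℕ) (γ₀ : Q) (hN1 : ∀ γ, N ∣ a γ ↔ γ = γ₀)
    (ord : 𝕃 → ℤ)
    (hord_mul : ∀ x y : 𝕃, x ≠ 0 → y ≠ 0 → ord (x * y) = ord x + ord y)
    (hord_const : ∀ c : K, c ≠ 0 → ord (algebraMap K 𝕃 c) = 0)
    (U : ℕ → Q → 𝕃) (G : ℕ → K[X][X])
    (hU0 : ∀ m, m ∣ N → ∀ γ, U m γ ≠ 0)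
    (hU : ∀ m, m ∣ N → ∀ γ, (na_phi (K := K) j).IsIntegralElem (U m γ))
    (hUinv : ∀ m, m ∣ N → ∀ γ, (na_phi (K := K) j).IsIntegralElem (U m γ)⁻¹)
    (hG : ∀ m, m ∣ N → (G m).map (na_phi (K := K) j) =
      ∑ γ, C (U m γ) * ∏ β ∈ univ.erase γ, (X - C (Y β)))
    (hordU : ∀ m, m ∣ N → ∀ γ,
      (m : ℤ) * ord (U m γ) = (N : ℤ) * (((Nat.gcd (a γ) m : ℕ) : ℤ) ^ 2 - m)) :
    Irreducible (Phi.map (algebraMap K[X] (RatFunc K))) := by
  let _ : Algebra (RatFunc K) 𝕃 := (na_iota j hj).toAlgebra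
  have h := na_minpoly_eq j hj Y hY Phi hPhi N hN a γ₀ hN1 ord hord_mul hord_const U G hU0 hU
    hUinv hG hordU
  have hΦ : (Phi.map (algebraMap K[X] (RatFunc K))).map (na_iota j hj) =
      ∏ γ, (X - C (Y γ)) := by rw [Polynomial.map_map, na_iota_comp, hPhi]
  have hint : IsIntegral (RatFunc K) (Y γ₀) := by
    refine ⟨Phi.map (algebraMap K[X] (RatFunc K)), ?_, ?_⟩
    · apply Polynomial.monic_of_injective (na_iota j hj).injective
      rw [hΦ]
      exact monic_prod_of_monic _ _ fun γ _ => monic_X_sub_C (Y γ)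
    · rw [eval₂_eq_eval_map]
      change eval (Y γ₀) ((Phi.map (algebraMap K[X] (RatFunc K))).map (na_iota j hj)) = 0
      rw [hΦ, eval_prod]
      exact Finset.prod_eq_zero (mem_univ γ₀) (by simp)
  rw [← h]
  exact minpoly.irreducible hint

/-- **(HC)-form**: under the hypotheses of Theorem (B), the powers `(Y γ₀)^i`, `i < card Q`,
are linearly independent over `K[j]`. -/
theorem na_linearIndependent (j : 𝕃) (hj : Transcendental K j)
    (Y : Q → 𝕃) (hY : Function.Injective Y)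
    (Phi : K[X][X]) (hPhi : Phi.map (na_phi (K := K) j) = ∏ γ, (X - C (Y γ)))
    (N : ℕ) (hN : N ≠ 0) (a : Q → ℕ) (γ₀ : Q) (hN1 : ∀ γ, N ∣ a γ ↔ γ = γ₀)
    (ord : 𝕃 → ℤ)
    (hord_mul : ∀ x y : 𝕃, x ≠ 0 → y ≠ 0 → ord (x * y) = ord x + ord y)
    (hord_const : ∀ c : K, c ≠ 0 → ord (algebraMap K 𝕃 c) = 0)
    (U : ℕ → Q → 𝕃) (G : ℕ → K[X][X])
    (hU0 : ∀ m, m ∣ N → ∀ γ, U m γ ≠ 0)
    (hU : ∀ m, m ∣ N → ∀ γ, (na_phi (K := K) j).IsIntegralElem (U m γ))
    (hUinv : ∀ m, m ∣ N → ∀ γ, (na_phi (K := K) j).IsIntegralElem (U m γ)⁻¹)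
    (hG : ∀ m, m ∣ N → (G m).map (na_phi (K := K) j) =
      ∑ γ, C (U m γ) * ∏ β ∈ univ.erase γ, (X - C (Y β)))
    (hordU : ∀ m, m ∣ N → ∀ γ,
      (m : ℤ) * ord (U m γ) = (N : ℤ) * (((Nat.gcd (a γ) m : ℕ) : ℤ) ^ 2 - m))
    (c : Fin (Fintype.card Q) → K[X])
    (hc : ∑ i, na_phi (K := K) j (c i) * (Y γ₀) ^ (i : ℕ) = 0) : c = 0 := by
  let _ : Algebra (RatFunc K) 𝕃 := (na_iota j hj).toAlgebra
  have h := na_minpoly_eq j hj Y hY Phi hPhi N hN a γ₀ hN1 ord hord_mul hord_const U G hU0 hU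
    hUinv hG hordU
  set Φk := Phi.map (algebraMap K[X] (RatFunc K)) with hΦk
  have hΦ : Φk.map (na_iota j hj) = ∏ γ, (X - C (Y γ)) := by
    rw [hΦk, Polynomial.map_map, na_iota_comp, hPhi]
  have hΦmon : Φk.Monic := by
    apply Polynomial.monic_of_injective (na_iota j hj).injective
    rw [hΦ]
    exact monic_prod_of_monic _ _ fun γ _ => monic_X_sub_C (Y γ)
  have hdegΦ : Φk.natDegree = Fintype.card Q := by
    rw [na_natDegree_eq_card (na_iota j hj) Y hY Φk hΦ Φk hΦmon dvd_rfl,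
      na_S_Phi (na_iota j hj) Y Φk hΦ, card_univ]
  set Cp : (RatFunc K)[X] :=
    ∑ i : Fin (Fintype.card Q), C (algebraMap K[X] (RatFunc K) (c i)) * X ^ (i : ℕ) with hCp
  have hCroot : aeval (Y γ₀) Cp = 0 := by
    rw [hCp, map_sum, ← hc]
    refine Finset.sum_congr rfl fun i _ => ?_
    rw [map_mul, aeval_C, map_pow, aeval_X]
    congr 1
    exact na_iota_algebraMap j hj (c i)
  have hCdeg : Cp.degree < Φk.degree := by
    rw [degree_eq_natDegree hΦmon.ne_zero, hdegΦ]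
    exact degree_sum_fin_lt _
  have hCzero : Cp = 0 := by
    have hdvd : Φk ∣ Cp := by rw [← h]; exact minpoly.dvd _ _ hCroot
    exact eq_zero_of_dvd_of_degree_lt hdvd hCdeg
  funext i
  have hcoeff : Cp.coeff (i : ℕ) = algebraMap K[X] (RatFunc K) (c i) := by
    rw [hCp, finsetSum_coeff]
    rw [Finset.sum_eq_single i]
    · simp
    · intro b _ hb
      rw [coeff_C_mul_X_pow, if_neg]
      exact fun hh => hb (Fin.ext hh.symm)
    · intro hh; exact absurd (mem_univ i) hh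
  rw [hCzero, coeff_zero] at hcoeff
  have hinj := IsFractionRing.injective K[X] (RatFunc K)
  have h0 : c i = 0 := hinj (by rw [← hcoeff, map_zero])
  simpa using h0

end assembly

/-! ### Part 4: the instance `𝕃 = K((t))`, `ord = HahnSeries.order` -/

section laurent

variable {K : Type*} [Field K]

theorem na_order_mul (x y : LaurentSeries K) (hx : x ≠ 0) (hy : y ≠ 0) :
    (x * y).order = x.order + y.order := HahnSeries.order_mul hx hy

theorem na_algebraMap_eq_C (c : K) :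
    algebraMap K (LaurentSeries K) c = HahnSeries.C c := by
  rw [HahnSeries.algebraMap_apply', PowerSeries.algebraMap_apply, Algebra.algebraMap_self,
    RingHom.id_apply, HahnSeries.ofPowerSeries_C]

theorem na_order_const (c : K) (_hc : c ≠ 0) :
    (algebraMap K (LaurentSeries K) c).order = 0 := by
  rw [na_algebraMap_eq_C]
  exact HahnSeries.order_C

end laurent

end

end Fermat.Agent.S28
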